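/-
S36, instance of the model, node N6 HALFPT-INST (helper135): the field `norm_unit` of `BP.HalfPt` at
a closed point of a chart `B` stable under the norm.  (Same argument as helper98's node A4 /
helper111's node A8c of `BAD/Model`; restated here so that the closure of N6 only contains the
definition files and `S36/BP`.)

No uniqueness of the point above its image is needed: on the component `Vb` the norm is congruent to
the `q`-th power (`Half.res_b`, `Half.ord_b`), and the prime `B ∩ 𝔪(Vb)` is contained in `𝔫`.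
-/
import Mathlib
import Fermat.Agent.S18.Defs
import Fermat.Agent.S36.BP.Defs
import Fermat.Agent.S36.BP.Rad
import Fermat.Agent.S36.BP.Loc.Basic

set_option autoImplicit false

namespace Fermat.Agent.S36.Inst.HalfPt

open Fermat.Agent.S18 Fermat.Agent.S36.BP

variable {F : Type*} [Field F] {q : ℕ}

/-- If `N b ≡ b ^ q` on a component `W` through `𝔫`, the norm preserves the units of `B_𝔫`. -/
theorem normUnit_of_cong (B : Subring F) (W : ValuationSubring F)
    (N : F →* F) (hN : ∀ b ∈ B, N b ∈ B) (hres : ∀ b ∈ B, W.valuation (N b - b ^ q) < 1)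
    (𝔫 : Ideal B) [𝔫.IsMaximal] (h𝔫 : ∀ b : B, W.valuation (b : F) < 1 → b ∈ 𝔫) :
    ∀ ε : F, RUnit (locSub B 𝔫) ε → RUnit (locSub B 𝔫) (N ε) := by
  have hprime : 𝔫.IsPrime := Ideal.IsMaximal.isPrime inferInstance
  -- the norm preserves the complement of `𝔫`
  have key : ∀ b : B, b ∉ 𝔫 → (⟨N b, hN b b.2⟩ : B) ∉ 𝔫 := by
    intro b hb hNb
    have h1 : (⟨N b, hN b b.2⟩ - b ^ q : B) ∈ 𝔫 := h𝔫 _ (by
      push_cast
      exact hres b b.2)
    have h2 : b ^ q ∈ 𝔫 := by
      have := 𝔫.sub_mem hNb h1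
      rwa [sub_sub_cancel] at this
    exact hb (hprime.mem_of_pow_mem q h2)
  intro ε hε
  obtain ⟨a, s, ha, hs, e⟩ := rUnit_locSub_iff.1 hε
  exact rUnit_locSub_iff.2 ⟨⟨N a, hN a a.2⟩, ⟨N s, hN s s.2⟩, key a ha, key s hs, by
    show N ε * N s = N a
    rw [← map_mul, e]⟩

/-- `Half.res_b` + `Half.ord_b` give the congruence for all elements of `Vb`. -/
theorem half_cong_pow {ϖm : F} {E : Subfield F} {N : F →* F} {Va Vm Vb : ValuationSubring F}
    (H : Half q ϖm E N Va Vm Vb) (hq : 0 < q) {y : F} (hy : y ∈ Vb) :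
    Vb.valuation (N y - y ^ q) < 1 := by
  rcases (mem_iff_val_le.1 hy).lt_or_eq with h | h
  · have h1 : Vb.valuation y ^ q < 1 := pow_lt_one₀ zero_le h hq.ne'
    refine Valuation.map_sub_lt _ ?_ ?_
    · rw [H.ord_b]
      exact h1
    · rw [map_pow]
      exact h1
  · exact H.res_b y h

/-- the norm preserves the units of the local ring of a chart at a point of the component `Vb`. -/
theorem normUnit_chart (hq : 0 < q) {ϖm : F} {E : Subfield F} {N : F →* F}
    {Va Vm Vb : ValuationSubring F} (H : Half q ϖm E N Va Vm Vb) (B : Subring F)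
    (hint : ∀ b ∈ B, N b ∈ B) (𝔫 : Ideal B) [𝔫.IsMaximal] (hT : Through (locSub B 𝔫) Vb) :
    ∀ ε : F, RUnit (locSub B 𝔫) ε → RUnit (locSub B 𝔫) (N ε) := by
  refine normUnit_of_cong (q := q) B Vb N hint ?_ 𝔫 ?_
  · intro b hb
    exact half_cong_pow H hq (hT.le b (le_locSub hb))
  · intro b hb
    by_contra hmem
    have h1 : RUnit (locSub B 𝔫) (b : F) :=
      ⟨coe_ne_zero_of_notMem hmem, le_locSub b.2, inv_mem_locSub hmem⟩
    exact absurd (h1.val_eq_one hT.le) hb.ne

end Fermat.Agent.S36.Inst.HalfPt
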