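/-
S36, instance of the model, node N6 HALFPT-INST (helper135): the abstract part.

* `dense_pt_of_goodBelow` : if the component `W` is, near the point `R`, a copy of the good model
  of the level whose function field is `E` (`BAD.Model.GoodBelow`), then `R ∩ E` surjects onto the
  image of `R` in the residue field of `W`.
* `embNorm_mem_chart` : (embedding) ∘ (norm) maps the chart `chart A x` to itself as soon as `x` and
  the image `f x₁` of a function of the lower level are integral over each other.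
* `halfPt_of` : the structure `BP.HalfPt` at a closed point of a chart.
-/
import Mathlib
import Fermat.Agent.S18.Defs
import Fermat.Agent.S18.Chart.Const
import Fermat.Agent.S36.BP.Defs
import Fermat.Agent.S36.BP.Rad
import Fermat.Agent.S36.BP.Build.ChartMap
import Fermat.Agent.S36.BP.Build.NormUnit
import Fermat.Agent.S36.ModelStatement
import Fermat.Agent.BAD.Model.Defs
import Fermat.Agent.S36.Inst.HalfPt.NormUnit

set_option autoImplicit false
set_option linter.style.haveILetI false
set_option linter.unusedSectionVars false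

noncomputable section

namespace Fermat.Agent.S36.Inst.HalfPt

open Fermat.Agent.S18 Fermat.Agent.S36.BP Fermat.Agent.BAD.Model

section Dense

variable {K₀ F : Type*} [Field K₀] [Field F] [Algebra K₀ F] {A₀ : ValuationSubring K₀}
  {R : Subring F} {W : ValuationSubring F} {E E' : Subfield F}

/-- `R ∩ E` surjects onto the image of `R` in the residue field of `W`. -/
theorem dense_pt_of_goodBelow (hR : IsPt A₀ R) (hle : ∀ r ∈ R, r ∈ W) (G : GoodBelow W E R) :
    ∀ r ∈ R, ∃ r' ∈ R, r' ∈ E ∧ W.valuation (r' - r) < 1 := by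
  intro r hr
  have hrW : W.valuation r ≤ 1 := (W.valuation_le_one_iff r).2 (hle r hr)
  rcases lt_or_eq_of_le hrW with h1 | h1
  · refine ⟨0, R.zero_mem, E.zero_mem, ?_⟩
    rwa [zero_sub, Valuation.map_neg]
  obtain ⟨y, hyE, hy⟩ := G.dense r (hle r hr)
  have hyr : Cg W y r := hy
  have hy1 : W.valuation y = 1 := hyr.val_eq_one h1
  obtain ⟨η, hηR, hηE, h | h⟩ := G.branch y hyE hy1
  · have h' : Cg W y η := h
    exact ⟨η, hηR, hηE, h'.symm.trans hyr⟩
  · have h' : Cg W y⁻¹ η := h
    have hη1 : W.valuation η = 1 := h'.symm.val_eq_one (val_inv_eq_one hy1)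
    -- `η⁻¹ ≡ y ≡ r`
    have h2 : Cg W η⁻¹ r := by
      have := (h'.symm.inv (val_inv_eq_one hy1))
      rw [inv_inv] at this
      exact this.trans hyr
    -- `η r ≡ 1`
    have h3 : Cg W (η * r) 1 := by
      have := h2.symm.mul_left (c := η) hη1.le
      rwa [mul_inv_cancel₀ (ne_zero_of_val_eq_one hη1)] at this
    have h4 : Cr R (η * r) 1 := h3.cr hle (R.mul_mem hηR hr) R.one_mem
    have h5 : RUnit R (η * r) := hR.runit_of_cr h4 (RUnit.one R)
    have h6 : RUnit R η := RUnit.of_mul_left hηR hr h5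
    exact ⟨η⁻¹, h6.inv_mem, E.inv_mem hηE, h2⟩

theorem dense_pt_mono (hE : E ≤ E')
    (h : ∀ r ∈ R, ∃ r' ∈ R, r' ∈ E ∧ W.valuation (r' - r) < 1) :
    ∀ r ∈ R, ∃ r' ∈ R, r' ∈ E' ∧ W.valuation (r' - r) < 1 := by
  intro r hr
  obtain ⟨r', h1, h2, h3⟩ := h r hr
  exact ⟨r', h1, hE h2, h3⟩

end Dense

section Norm

variable {K₀ F₁ F : Type*} [Field K₀] [Field F₁] [Field F] [Algebra K₀ F₁] [Algebra K₀ F]

/-- (embedding) ∘ (norm) maps the chart of `f x₁` to itself. -/
theorem embNorm_mem_chart_map (f : F₁ →ₐ[K₀] F)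
    (hfin : letI := f.toRingHom.toAlgebra; FiniteDimensional F₁ F) (A : Subring K₀) (x₁ : F₁) :
    ∀ b ∈ chart A (f x₁), embNorm f.toRingHom b ∈ chart A (f x₁) := by
  letI := f.toRingHom.toAlgebra
  haveI : FiniteDimensional F₁ F := hfin
  intro b hb
  refine Build.algebraMap_norm_mem (F₁ := F₁) (chart A (f x₁)) ?_
    (fun y hy => mem_chart_of_isIntegral_chart A _ y hy) b hb
  intro b hb
  rw [mem_chart_iff_isIntegral] at hb
  refine isIntegral_of_forall_exists_algebraMap (fun r => ?_) hb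
  obtain ⟨y₀, hy₀, hy⟩ := (Build.mem_polyRing_map_iff f A x₁ _).1 r.2
  refine ⟨⟨y₀, ?_⟩, hy⟩
  rw [Subring.mem_comap]
  have : algebraMap F₁ F y₀ = (r : F) := hy
  rw [this]
  exact polyRing_le_chart A _ r.2

/-- (embedding) ∘ (norm) maps the chart of `x` to itself if `x` and some `f x₁` are integral over
each other. -/
theorem embNorm_mem_chart (f : F₁ →ₐ[K₀] F)
    (hfin : letI := f.toRingHom.toAlgebra; FiniteDimensional F₁ F) (A : Subring K₀) (x₁ : F₁)
    {x : F} (h : f x₁ ∈ chart A x) (h' : x ∈ chart A (f x₁)) :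
    ∀ b ∈ chart A x, embNorm f.toRingHom b ∈ chart A x := by
  rw [Build.chart_eq_of_mem A h h']
  exact embNorm_mem_chart_map f hfin A x₁

end Norm

section Assemble

variable {K₀ F : Type*} [Field K₀] [Field F] [Algebra K₀ F] {A₀ : ValuationSubring K₀}

/-- **The structure `HalfPt` at a closed point of a chart `B`.** -/
theorem halfPt_of {q : ℕ} (hq : 0 < q) {ϖm : F} {E E₀ : Subfield F} {N : F →* F}
    {Va Vm Vb : ValuationSubring F} (H : Half q ϖm E N Va Vm Vb) (B : Subring F)
    (hint : ∀ b ∈ B, N b ∈ B) (𝔫 : Ideal B) [𝔫.IsMaximal] (hR : IsPt A₀ (locSub B 𝔫))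
    (hE : E₀ ≤ E)
    (hTa : Through (locSub B 𝔫) Va) (hTm : Through (locSub B 𝔫) Vm)
    (hTb : Through (locSub B 𝔫) Vb)
    (Ga : GoodBelow Va E₀ (locSub B 𝔫)) (Gm : GoodBelow Vm E₀ (locSub B 𝔫)) :
    HalfPt E N Va Vm (locSub B 𝔫) where
  dense_a := dense_pt_mono hE (dense_pt_of_goodBelow hR hTa.le Ga)
  dense_m := dense_pt_mono hE (dense_pt_of_goodBelow hR hTm.le Gm)
  norm_unit := normUnit_chart hq H B hint 𝔫 hTb

end Assemble

end Fermat.Agent.S36.Inst.HalfPt

end
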