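/-
S36, instance of the model, node N6 HALFPT-INST (helper135): the two structures `BP.HalfPt` at a
crossing point of the chart `chart S.B j`, `j = S.J2one`, in the language of `Mod.Setup` and of
`S36/Inst/Defs.lean`.  All names of this file live in the namespace `Fermat.Agent.S36.Inst.HalfPt`.

Inputs (hypotheses of `halfPtα`, `halfPtβ`):
* `IsPt S.B R` (from `PreModel.ptBase`, node N1);
* the facts `GoodBelow` (node N4);
* `j(τ)` and `j(qτ)` are integral over each other (library `Lib/ModEq`, `JK_mul_mem_chart` and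
  `JK_mem_chart_mul`).
-/
import Fermat.Agent.S36.Inst.HalfPt.Abs
import Fermat.Agent.S36.Inst.Defs
import Fermat.Agent.S36.Mod.HalfInst.Main

set_option autoImplicit false
set_option linter.style.haveILetI false
set_option linter.unusedSectionVars false

noncomputable section

namespace Fermat.Agent.S36.Inst.HalfPt

open ModularCurve Fermat.Agent.S24 Fermat.Agent.S18 Fermat.Agent.S18.Vert
  Fermat.Agent.S18.Descent Fermat.Agent.S36.Norm Fermat.Agent.S36.BP Fermat.Agent.BAD.Model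
  Fermat.Agent.S36.Mod

variable {K K' : Type*} [Field K] [Field K'] [Algebra ℚ K] [Algebra ℚ K'] [Algebra K Kbar]
  [Algebra K' Kbar] (S : Setup K K')

theorem al1_J1one : S.al1 S.J1one = S.J2one := al_JK (S.N0 * S.q) S.q 1 _

theorem be1_J1one : S.be1 S.J1one = J2q S := by
  have h1 : S.q * 1 ∣ S.N0 * S.q * S.q := by rw [Nat.mul_one]; exact Dvd.intro_left _ rfl
  have e1 : S.be1 S.J1one = JK K (S.N0 * S.q * S.q) (S.q * 1) h1 :=
    be_JK (S.N0 * S.q) S.q 1 _ h1
  rw [e1]
  exact JK_congr K _ (Nat.mul_comm _ _) _ _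

theorem finiteDimensional_al1 :
    letI := S.al1.toRingHom.toAlgebra; FiniteDimensional S.F1 S.F2 := by
  letI := S.al1.toRingHom.toAlgebra
  have hdeg : Module.finrank S.F1 S.F2 = S.q := S.dg_al1
  exact Module.finite_of_finrank_pos (by rw [hdeg]; exact S.hq.pos)

theorem finiteDimensional_be1 :
    letI := S.be1.toRingHom.toAlgebra; FiniteDimensional S.F1 S.F2 := by
  letI := S.be1.toRingHom.toAlgebra
  have hdeg : Module.finrank S.F1 S.F2 = S.q := S.dg_be1
  exact Module.finite_of_finrank_pos (by rw [hdeg]; exact S.hq.pos)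

/-- the norm along `α` preserves the chart of `j`. -/
theorem embNorm_al1_mem_chart (A : Subring K) :
    ∀ b ∈ chart A S.J2one, embNorm S.al1.toRingHom b ∈ chart A S.J2one := by
  have h := HalfPt.embNorm_mem_chart_map S.al1 (finiteDimensional_al1 S) A S.J1one
  rwa [al1_J1one S] at h

/-- the norm along `β` preserves the chart of `j`. -/
theorem embNorm_be1_mem_chart (A : Subring K) (hJ : J2q S ∈ chart A S.J2one)
    (hJ' : S.J2one ∈ chart A (J2q S)) :
    ∀ b ∈ chart A S.J2one, embNorm S.be1.toRingHom b ∈ chart A S.J2one := by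
  refine HalfPt.embNorm_mem_chart S.be1 (finiteDimensional_be1 S) A S.J1one ?_ ?_
  · rw [be1_J1one S]; exact hJ
  · rw [be1_J1one S]; exact hJ'

theorem aa_fieldRange_le : (aa S).toRingHom.fieldRange ≤ Ea S := by
  rintro _ ⟨y, rfl⟩
  exact ⟨S.al0 y, rfl⟩

theorem bb_fieldRange_le : (bb S).toRingHom.fieldRange ≤ Eb S := by
  rintro _ ⟨y, rfl⟩
  exact ⟨S.be0 y, rfl⟩

/-- **N6, half `α`.** -/
theorem halfPtα (𝔫 : Ideal (chart S.B.toSubring S.J2one)) [𝔫.IsMaximal]
    (hR : IsPt S.B (locSub _ 𝔫))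
    (hT : ∀ c, Through (locSub _ 𝔫) (VV S c))
    (G20 : GoodBelow S.V20 (aa S).toRingHom.fieldRange (locSub _ 𝔫))
    (G11 : GoodBelow S.V11 (aa S).toRingHom.fieldRange (locSub _ 𝔫)) :
    BP.HalfPt (Ea S) (Na S) S.V20 S.V11 (locSub _ 𝔫) :=
  halfPt_of S.hq.pos S.halfα _ (embNorm_al1_mem_chart S _) 𝔫 hR (aa_fieldRange_le S)
    (hT 0) (hT 1) (hT 2) G20 G11

/-- **N6, half `β`.** -/
theorem halfPtβ (hJ : J2q S ∈ chart S.B.toSubring S.J2one)
    (hJ' : S.J2one ∈ chart S.B.toSubring (J2q S))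
    (𝔫 : Ideal (chart S.B.toSubring S.J2one)) [𝔫.IsMaximal]
    (hR : IsPt S.B (locSub _ 𝔫))
    (hT : ∀ c, Through (locSub _ 𝔫) (VV S c))
    (G02 : GoodBelow S.V02 (bb S).toRingHom.fieldRange (locSub _ 𝔫))
    (G11 : GoodBelow S.V11 (bb S).toRingHom.fieldRange (locSub _ 𝔫)) :
    BP.HalfPt (Eb S) (Nb S) S.V02 S.V11 (locSub _ 𝔫) :=
  halfPt_of S.hq.pos S.halfβ _ (embNorm_be1_mem_chart S _ hJ hJ') 𝔫 hR (bb_fieldRange_le S)
    (hT 2) (hT 1) (hT 0) G02 G11

end Fermat.Agent.S36.Inst.HalfPt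

end
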