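/-
S36, instance of the model, node N6 HALFPT-INST (helper135): `GoodBelow` on the middle component is
a consequence of `GoodBelow` on the outer component of the same degeneracy map.

`Va` and `Vm` induce the same valuation on `E` (`Half.compat`), `E` is dense in `Vm`
(`Half.dense_m`); hence, for `E₀ ≤ E`, the fields `dense` and `branch` of `GoodBelow Vm E₀ R` follow
from those of `GoodBelow Va E₀ R`.
-/
import Fermat.Agent.S36.Inst.HalfPt.Abs

set_option autoImplicit false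

noncomputable section

namespace Fermat.Agent.S36.Inst.HalfPt

open Fermat.Agent.S18 Fermat.Agent.S36.BP Fermat.Agent.BAD.Model

variable {F : Type*} [Field F] {q : ℕ} {ϖm : F} {E E₀ : Subfield F} {N : F →* F}
  {Va Vm Vb : ValuationSubring F} {R : Subring F}

theorem val_lt_one_iff_of_half (H : Half q ϖm E N Va Vm Vb) {y : F} (hy : y ∈ E) :
    Va.valuation y < 1 ↔ Vm.valuation y < 1 := by
  by_cases h0 : y = 0
  · simp [h0]
  · rw [valuation_lt_one_iff_inv_not_mem h0, valuation_lt_one_iff_inv_not_mem h0,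
      H.compat _ (E.inv_mem hy)]

theorem val_eq_one_iff_of_half (H : Half q ϖm E N Va Vm Vb) {y : F} (hy : y ∈ E) :
    Va.valuation y = 1 ↔ Vm.valuation y = 1 := by
  rw [val_eq_one_iff, val_eq_one_iff, H.compat _ hy, H.compat _ (E.inv_mem hy)]

/-- `GoodBelow` on the middle component from `GoodBelow` on the outer one. -/
theorem goodBelow_mid (H : Half q ϖm E N Va Vm Vb) (hE : E₀ ≤ E) (Ga : GoodBelow Va E₀ R)
    (hTm : Through R Vm) : GoodBelow Vm E₀ R where
  dense := by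
    intro y hy
    obtain ⟨y₁, hy₁E, hy₁⟩ := H.dense_m y hy
    have h1 : Cg Vm y₁ y := hy₁
    have hy₁m : y₁ ∈ Vm := mem_iff_val_le.2 (h1.val_le_one (mem_iff_val_le.1 hy))
    obtain ⟨y₂, hy₂E, hy₂⟩ := Ga.dense y₁ ((H.compat y₁ hy₁E).2 hy₁m)
    have h2 : Cg Vm y₂ y₁ :=
      (val_lt_one_iff_of_half H (E.sub_mem (hE hy₂E) hy₁E)).1 hy₂
    exact ⟨y₂, hy₂E, h2.trans h1⟩
  branch := by
    intro y hy h1
    obtain ⟨η, hηR, hηE, h⟩ := Ga.branch y hy ((val_eq_one_iff_of_half H (hE hy)).2 h1)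
    refine ⟨η, hηR, hηE, h.imp ?_ ?_⟩
    · exact (val_lt_one_iff_of_half H (E.sub_mem (hE hy) (hE hηE))).1
    · exact (val_lt_one_iff_of_half H (E.sub_mem (E.inv_mem (hE hy)) (hE hηE))).1
  dvr := by
    obtain ⟨t, ht, h⟩ := hTm.dvr
    exact ⟨t, ht, fun y hy _ => h y hy⟩

variable {K₀ : Type*} [Field K₀] [Algebra K₀ F] {A₀ : ValuationSubring K₀}

/-- **The structure `HalfPt` at a closed point of a chart `B`**, from `GoodBelow` on the outer
component only. -/
theorem halfPt_of_outer (hq : 0 < q) (H : Half q ϖm E N Va Vm Vb) (B : Subring F)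
    (hint : ∀ b ∈ B, N b ∈ B) (𝔫 : Ideal B) [𝔫.IsMaximal] (hR : IsPt A₀ (locSub B 𝔫))
    (hE : E₀ ≤ E)
    (hTa : Through (locSub B 𝔫) Va) (hTm : Through (locSub B 𝔫) Vm)
    (hTb : Through (locSub B 𝔫) Vb) (Ga : GoodBelow Va E₀ (locSub B 𝔫)) :
    HalfPt E N Va Vm (locSub B 𝔫) :=
  halfPt_of hq H B hint 𝔫 hR hE hTa hTm hTb Ga (goodBelow_mid H hE Ga hTm)

end Fermat.Agent.S36.Inst.HalfPt

end
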