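/-
S36, instance of the model, node N6 HALFPT-INST (helper135): the node `NodeHalfPt` of
`S36/Inst/Nodes.lean` from the nodes N1 (`NodePre`), N4 (`NodeGood`, components `0` and `2` only)
and the integrality of `j(z)`, `j(qz)` over each other (`NodeJInt`, library `Lib/ModEq`).
-/
import Fermat.Agent.S36.Inst.Nodes
import Fermat.Agent.S36.Inst.HalfPt.Main
import Fermat.Agent.S36.Inst.HalfPt.Mid
import Fermat.Agent.BAD.Model.Pre.PtBase
import Fermat.Agent.S36.BP.Loc.Basic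

set_option autoImplicit false
set_option linter.unusedSectionVars false

noncomputable section

namespace Fermat.Agent.S36.Inst

open ModularCurve Fermat.Agent.S24 Fermat.Agent.S18 Fermat.Agent.S36.Mod Fermat.Agent.S36.BP
  Fermat.Agent.BAD.Model

/-- `j(z)` and `j(qz)` are integral over each other. -/
def NodeJInt : Prop :=
  ∀ (K K' : Type) [Field K] [Field K'] [Algebra ℚ K] [Algebra ℚ K'] [Algebra K Kbar]
    [Algebra K' Kbar] (S : Setup K K'),
    J2q S ∈ chart S.B.toSubring S.J2one ∧ S.J2one ∈ chart S.B.toSubring (J2q S)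

section

variable {K K' : Type*} [Field K] [Field K'] [Algebra ℚ K] [Algebra ℚ K'] [Algebra K Kbar]
  [Algebra K' Kbar] (S : Setup K K')

/-- **N6**, general form. -/
theorem halfPt_of_good (hJ : J2q S ∈ chart S.B.toSubring S.J2one)
    (hJ' : S.J2one ∈ chart S.B.toSubring (J2q S))
    (𝔫 : Ideal (chart S.B.toSubring S.J2one)) [𝔫.IsMaximal]
    (hR : IsPt S.B (locSub (chart S.B.toSubring S.J2one) 𝔫))
    (hT : ∀ c, Through (locSub (chart S.B.toSubring S.J2one) 𝔫) (VV S c))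
    (G0 : GoodBelow (VV S 0) (EE S 0) (locSub (chart S.B.toSubring S.J2one) 𝔫))
    (G2 : GoodBelow (VV S 2) (EE S 2) (locSub (chart S.B.toSubring S.J2one) 𝔫)) :
    HalfPt (Ea S) (Na S) (VV S 0) (VV S 1) (locSub (chart S.B.toSubring S.J2one) 𝔫) ∧
    HalfPt (Eb S) (Nb S) (VV S 2) (VV S 1) (locSub (chart S.B.toSubring S.J2one) 𝔫) :=
  ⟨HalfPt.halfPt_of_outer S.hq.pos S.halfα _ (HalfPt.embNorm_al1_mem_chart S _) 𝔫 hR
      (HalfPt.aa_fieldRange_le S) (hT 0) (hT 1) (hT 2) G0,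
    HalfPt.halfPt_of_outer S.hq.pos S.halfβ _ (HalfPt.embNorm_be1_mem_chart S _ hJ hJ') 𝔫 hR
      (HalfPt.bb_fieldRange_le S) (hT 2) (hT 1) (hT 0) G2⟩

end

/-- **N6 from N1, N4 and the integrality of `j(z)`, `j(qz)` over each other.** -/
theorem nodeHalfPt_of (h1 : NodePre) (h4 : NodeGood) (hJ : NodeJInt) : NodeHalfPt := by
  intro K K' _ _ _ _ _ _ S hb haux 𝔫 _ h𝔫 hT
  have P := h1 K K' S hb
  have hR := P.ptBase 𝔫 h𝔫
  have hj : S.J2one ∈ locSub (chart S.B.toSubring S.J2one) 𝔫 := le_locSub (self_mem_chart _)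
  have hG := h4 K K' S hb haux _ hR (Or.inl hj)
  exact halfPt_of_good S (hJ K K' S).1 (hJ K K' S).2 𝔫 hR.isPt hT
    (hG 0 ⟨(hT 0).le, (hT 0).loc⟩) (hG 2 ⟨(hT 2).le, (hT 2).loc⟩)

end Fermat.Agent.S36.Inst

end
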