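/-
S36, instance of the model, node N6 HALFPT-INST (helper135): `NodeJInt` from the modular equation
(library `Lib/ModEq`, architect helper254), and the node `NodeHalfPt` from N1 and N4.
-/
import Fermat.Agent.S36.Inst.HalfPt.Node
import Fermat.Agent.Lib.ModEq.Field

set_option autoImplicit false
set_option linter.unusedSectionVars false

noncomputable section

namespace Fermat.Agent.S36.Inst

open ModularCurve Fermat.Agent.S24 Fermat.Agent.S18 Fermat.Agent.S36.Mod Fermat.Agent.S36.BP
  Fermat.Agent.BAD.Model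

theorem nodeJInt : NodeJInt := by
  intro K K' _ _ _ _ _ _ S
  exact ⟨Lib.ModEq.JK_mul_mem_chart K S.B.toSubring S.q S.hq (S.N0 * S.q * S.q) 1 _ _,
    Lib.ModEq.JK_mem_chart_mul K S.B.toSubring S.q S.hq (S.N0 * S.q * S.q) 1 _ _⟩

/-- **N6 from N1 and N4.** -/
theorem nodeHalfPt (h1 : NodePre) (h4 : NodeGood) : NodeHalfPt := nodeHalfPt_of h1 h4 nodeJInt

end Fermat.Agent.S36.Inst

end
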